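import Mathlib
import Fermat.Agent.FF.Along
import Fermat.Agent.FF.NormEmbeddings
import Fermat.Agent.Semistable.Levels
import Fermat.Agent.Semistable.ModRel

/-!
# The norm from level `q M` to level `M` and its reduction

For `x` in the function field of level `q M` one has, on expansions,
`N(x)(q ^ q) = x(q ^ q) · ∏ᵢ (w x)(ζⁱ q)`; hence if `x` and `w x` reduce to `r₀`, `r₁` the norm
reduces to `r₀ · Frob(r₁)`, where `Frob` acts on the coefficients.
-/

set_option autoImplicit false

noncomputable section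

attribute [local instance 20000] SubalgebraClass.toAlgebra

namespace Fermat.Agent.NewformLocal.Toric

open AlgebraicCurve ModularCurve Semistable
open Arith (QBar)

variable (q M : ℕ) [hq : Fact q.Prime] [NeZero M] (hqM : ¬ q ∣ M)

include hqM in
/-- For a prime `q ∤ M` the degeneracy map from level `q M` to level `M` has degree `q + 1`. -/
theorem finrankAlong_upF : finrankAlong QBar (upF M q) = q + 1 := by
  let := algebraAlong (upF M q)
  have : Module.Finite (modularFunctionFieldBar M) (modularFunctionFieldBar (q * M)) :=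
    FF.finiteAlong (upF M q)
  have h := (FF.finite_and_finrank_adjoin_algebraMap (F' := modularFunctionFieldBar (q * M))
    (ModFun.transcendental_jBase M QBar)).2
  have hj : algebraMap (modularFunctionFieldBar M) (modularFunctionFieldBar (q * M))
      (ModFun.jBase M QBar) = ModFun.jBase (q * M) QBar :=
    Subtype.ext (by
      show (upF M q (ModFun.jBase M QBar) : LSer) = _
      rw [coe_upF, ModFun.coe_jBase, ModFun.coe_jBase])
  rw [hj, (ModFun.finrank_baseChange (q * M) QBar).2, (ModFun.finrank_baseChange M QBar).2,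
    Gamma0.dedekindPsi_mul_of_not_dvd hq.out hqM, mul_comm] at h
  have hpos : 0 < dedekindPsi M := by
    rw [← ModFun.natCard_coset M]; exact Nat.card_pos
  exact (mul_left_cancel₀ hpos.ne' h).symm

/-- The norm from level `q M` to level `M`. -/
def normUp : FB (q * M) →* FB M :=
  letI := algebraAlong (upF M q)
  Algebra.norm (FB M)

/-- The expansion of the norm. -/
theorem qExpand_normUp {ζ : QBarˣ} (hζ : IsPrimitiveRoot ζ q) (x : FB (q * M)) :
    qExpand QBar q (normUp q M x : LSer) =
      qExpand QBar q (x : LSer) *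
        ∏ i : Fin q, ModFun.twist (ζ ^ (i : ℕ)) (wEquiv q M hqM x : LSer) := by
  classical
  let := algebraAlong (upF M q)
  have : Module.Finite (modularFunctionFieldBar M) (modularFunctionFieldBar (q * M)) :=
    FF.finiteAlong (upF M q)
  let e : FB M →+* LSer := (qExpand QBar q).comp (FB M).val.toRingHom
  let base : Fin (q + 1) → (FB (q * M) →+* LSer) := Fin.cases
    ((qExpand QBar q).comp (FB (q * M)).val.toRingHom)
    fun i => ((ModFun.twist (ζ ^ (i : ℕ))).comp (FB (q * M)).val.toRingHom).comp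
      (wEquiv q M hqM).toAlgHom.toRingHom
  have hroot : ∀ i : ℕ, (ζ ^ i) ^ q = 1 := fun i => by
    rw [← pow_mul, mul_comm, pow_mul, hζ.pow_eq_one, one_pow]
  have hbase : ∀ o z, base o (upF M q z) = e z := by
    intro o z
    induction o using Fin.cases with
    | zero =>
      show qExpand QBar q (upF M q z : LSer) = _
      rw [coe_upF]; rfl
    | succ i =>
      show ModFun.twist _ (wEquiv q M hqM (upF M q z) : LSer) = _
      rw [wEquiv_upF, coe_downF, ModFun.twist_qExpand_of_pow_eq_one _ q (hroot i)]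
      rfl
  -- the embeddings are separated by `j (q τ)`
  set y : FB (q * M) := genF (q * M) ⟨q * 1, mul_dvd_mul_left q (one_dvd M)⟩ with hy
  have hy' : ∀ o, base o y = modRoot q ζ o := by
    intro o
    induction o using Fin.cases with
    | zero =>
      show qExpand QBar q (y : LSer) = qExpand QBar (q * q) (jqModC QBar)
      rw [hy, coe_genF, gen, qExpand_qExpand]
      exact qExpand_congr (show q * (q * 1) = q * q by rw [mul_one]) _
    | succ i =>
      show ModFun.twist _ (wEquiv q M hqM y : LSer) = ModFun.twist _ (jqModC QBar)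
      rw [hy, wEquiv_gen_mul q M hqM (one_dvd M), qExpand_one_apply]
  have hinj : Function.Injective base := fun o o' h =>
    modRoot_injective q hq.out.two_le ζ hζ (by rw [← hy', ← hy', h])
  have hcard : Fintype.card (Fin (q + 1)) = Module.finrank (FB M) (FB (q * M)) := by
    rw [Fintype.card_fin]
    exact (finrankAlong_upF q M hqM).symm
  refine (FF.map_norm_eq_prod e base hbase hinj hcard x).trans ?_
  rw [Fin.prod_univ_succ]
  rfl

/-! ### Twists by roots of unity congruent to one -/

variable {q M}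
variable {A : ValuationSubring QBar} [CharP (Res A) q]

theorem twist_mem_intS (u : QBarˣ) (hu : u ^ q = 1) (a : intS A) :
    ∃ h : ModFun.twist u (a : LSer) ∈ intS A, red A ⟨_, h⟩ = red A a := by
  have hpow : ∀ k : ℤ, ((u ^ k : QBarˣ) : QBar) ^ q = 1 := fun k => by
    rw [← Units.val_pow_eq_pow_val, ← zpow_natCast, ← zpow_mul, mul_comm, zpow_mul, zpow_natCast,
      hu, one_zpow, Units.val_one]
  have hmem : ∀ k : ℤ, ((u ^ k : QBarˣ) : QBar) ∈ A := fun k => by
    rw [← A.valuation_le_one_iff]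
    refine (pow_le_one_iff (n := q) hq.out.ne_zero).mp ?_
    rw [← map_pow, hpow, map_one]
  have hone : ∀ k : ℤ, IsLocalRing.residue A ⟨_, hmem k⟩ = 1 := fun k => by
    have h : (IsLocalRing.residue A ⟨_, hmem k⟩ - 1) ^ q = 0 := by
      rw [sub_pow_char, one_pow, ← map_pow, show (⟨_, hmem k⟩ : A) ^ q = 1 from
        Subtype.ext (hpow k), map_one, sub_self]
    exact sub_eq_zero.mp ((pow_eq_zero_iff hq.out.ne_zero).mp h)
  obtain ⟨L, hL, haL⟩ := (mem_intS.mp a.2).1
  have hint : IsIntegral ℚ (u : QBar) := Algebra.IsIntegral.isIntegral _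
  have := IntermediateField.adjoin.finiteDimensional hint
  have h : ModFun.twist u (a : LSer) ∈ intS A := by
    refine ⟨⟨L ⊔ IntermediateField.adjoin ℚ {(u : QBar)}, inferInstance, fun n => ?_⟩, fun n => ?_⟩
    · rw [ModFun.coeff_twist]
      refine mul_mem ?_ ((le_sup_left : L ≤ _) (haL n))
      rw [Units.val_zpow_eq_zpow_val]
      exact (le_sup_right : IntermediateField.adjoin ℚ {(u : QBar)} ≤ _)
        (zpow_mem (IntermediateField.mem_adjoin_simple_self ℚ (u : QBar)) n)
    · rw [ModFun.coeff_twist]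
      exact mul_mem (hmem n) (coeff_mem A a n)
  refine ⟨h, HahnSeries.ext (funext fun n => ?_)⟩
  rw [coeff_red, coeff_red, ← one_mul (IsLocalRing.residue A ⟨(a : LSer).coeff n, _⟩), ← hone n,
    ← map_mul]
  rfl

/-- Twisting by a `q`-th root of unity preserves integral series and their reductions. -/
theorem twist_mem_locS (u : QBarˣ) (hu : u ^ q = 1) {y : LSer} (hy : y ∈ locS A) :
    ∃ h : ModFun.twist u y ∈ locS A, redL A ⟨_, h⟩ = redL A ⟨y, hy⟩ := by
  obtain ⟨a, b, hb, hab⟩ := id hy
  obtain ⟨ha', hra⟩ := twist_mem_intS u hu a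
  obtain ⟨hb', hrb⟩ := twist_mem_intS u hu b
  have h : ModFun.twist u y * ModFun.twist u (b : LSer) = ModFun.twist u (a : LSer) := by
    rw [← map_mul, hab]
  have hb0 : red A ⟨_, hb'⟩ ≠ 0 := by rwa [hrb]
  have hm : ModFun.twist u y ∈ locS A := ⟨⟨_, ha'⟩, ⟨_, hb'⟩, hb0, h⟩
  refine ⟨hm, ?_⟩
  rw [redL_eq ⟨_, hm⟩ (a := ⟨_, ha'⟩) (b := ⟨_, hb'⟩) hb0 h, redL_eq ⟨y, hy⟩ hb hab, hra, hrb]

omit hq [CharP (Res A) q] in
/-- A constant lying in `locS` is integral. -/
theorem mem_of_algebraMap_mem_locS {d : QBar} (h : algebraMap QBar LSer d ∈ locS A) : d ∈ A := by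
  obtain ⟨a, b, hb, hab⟩ := h
  obtain ⟨n, hn⟩ : ∃ n, (b : LSer).coeff n ∉ A.nonunits := by
    by_contra hall
    push Not at hall
    exact hb (red_eq_zero_iff.mpr hall)
  have h1 : d * (b : LSer).coeff n ∈ A := by
    have := congrArg (fun z : LSer => z.coeff n) hab
    simp only [algebraMap_laurentSeries_eq_single, HahnSeries.coeff_single_zero_mul] at this
    rw [this]
    exact coeff_mem A a n
  have hb1 : A.valuation ((b : LSer).coeff n) = 1 := le_antisymm
    ((A.valuation_le_one_iff _).mpr (coeff_mem A b n))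
    (not_lt.mp fun hlt => hn (A.mem_nonunits_iff.mpr hlt))
  rw [← A.valuation_le_one_iff] at h1 ⊢
  rwa [map_mul, hb1, mul_one] at h1

/-- The reduction of the norm. -/
theorem redL_normUp (hA : A.LiesOverPrime q) {x : FB (q * M)} {a b : QBar}
    (ha : algebraMap QBar LSer a * (x : LSer) ∈ locS A)
    (hb : algebraMap QBar LSer b * (wEquiv q M hqM x : LSer) ∈ locS A)
    (ha0 : redL A ⟨_, ha⟩ ≠ 0) (hb0 : redL A ⟨_, hb⟩ ≠ 0) :
    ∃ h : algebraMap QBar LSer (a * b ^ q) * (normUp q M x : LSer) ∈ locS A,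
      redL A ⟨_, h⟩ = redL A ⟨_, ha⟩ * coeffMap (frobenius (Res A) q) (redL A ⟨_, hb⟩) := by
  obtain ⟨ζ₀, hζ₀⟩ := HasEnoughRootsOfUnity.exists_primitiveRoot QBar q
  set ζ : QBarˣ := (hζ₀.isUnit hq.out.ne_zero).unit with hζdef
  have hζ : IsPrimitiveRoot ζ q := IsPrimitiveRoot.coe_units_iff.mp (by simpa [hζdef] using hζ₀)
  have hroot : ∀ i : ℕ, (ζ ^ i) ^ q = 1 := fun i => by
    rw [← pow_mul, mul_comm, pow_mul, hζ.pow_eq_one, one_pow]
  choose htw hrtw using fun i : Fin q => twist_mem_locS (ζ ^ (i : ℕ)) (hroot i) hb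
  set r₀ := redL A ⟨_, ha⟩ with hr₀
  set r₁ := redL A ⟨_, hb⟩ with hr₁
  set cN := algebraMap QBar LSer (a * b ^ q) * (normUp q M x : LSer) with hcN
  -- the expansion of the scaled norm
  have hY : qExpand QBar q cN = qExpand QBar q (algebraMap QBar LSer a * (x : LSer)) *
      ∏ i : Fin q, ModFun.twist (ζ ^ (i : ℕ))
        (algebraMap QBar LSer b * (wEquiv q M hqM x : LSer)) := by
    rw [hcN, map_mul (qExpand QBar q), map_mul (qExpand QBar q), qExpand_const, qExpand_const,
      qExpand_normUp q M hqM hζ,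
      Finset.prod_congr rfl fun (i : Fin q) _ => show
          ModFun.twist (ζ ^ (i : ℕ)) (algebraMap QBar LSer b * (wEquiv q M hqM x : LSer)) =
            algebraMap QBar LSer b * ModFun.twist (ζ ^ (i : ℕ)) (wEquiv q M hqM x : LSer) by
        rw [map_mul, twist_const],
      Finset.prod_mul_distrib, Finset.prod_const, Finset.card_univ, Fintype.card_fin, map_mul,
      map_pow]
    ring
  set P : locS A := ⟨_, qExpand_mem_locS q ha⟩ * ∏ i, ⟨_, htw i⟩ with hP
  have hPv : (P : LSer) = qExpand QBar q cN := by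
    rw [hY, hP, Subring.coe_mul, SubmonoidClass.coe_finsetProd]
  have hPred : redL A P = qExpand (Res A) q (r₀ * coeffMap (frobenius (Res A) q) r₁) := by
    rw [hP, map_mul, map_prod, Finset.prod_congr rfl fun i _ => hrtw i, Finset.prod_const,
      Finset.card_univ, Fintype.card_fin, redL_qExpand q ha, map_mul,
      ← pow_char_eq_qExpand q r₁]
  have hne : r₀ * coeffMap (frobenius (Res A) q) r₁ ≠ 0 :=
    mul_ne_zero ha0 ((map_ne_zero _).mpr hb0)
  have hPne : redL A P ≠ 0 := by
    rw [hPred]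
    exact (map_ne_zero _).mpr hne
  -- scale the norm itself
  have hfrac : cN ∈ fracS A :=
    mul_mem (algebraMap_mem_fracS _) (mem_fracS_of_mem (normUp q M x))
  have hcN0 : cN ≠ 0 := fun h0 => hPne (by
    rw [show P = 0 from Subtype.ext (hPv.trans (by rw [h0, map_zero]; rfl)), map_zero])
  obtain ⟨d, hd0, hd, hdne⟩ := exists_scale hA hq.out hfrac hcN0
  have hq1 : qExpand QBar q (algebraMap QBar LSer d * cN) =
      algebraMap QBar LSer d * (P : LSer) := by
    rw [map_mul, qExpand_const, hPv]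
  have hdP : algebraMap QBar LSer d * (P : LSer) ∈ locS A := hq1 ▸ qExpand_mem_locS q hd
  have hdPred : redL A ⟨_, hdP⟩ = qExpand (Res A) q (redL A ⟨_, hd⟩) :=
    (redL_congr hdP (qExpand_mem_locS q hd) hq1.symm).trans (redL_qExpand q hd)
  have hdPne : redL A ⟨_, hdP⟩ ≠ 0 := by
    rw [hdPred]
    exact (map_ne_zero _).mpr hdne
  have hP0 : (P : LSer) ≠ 0 := fun h0 => hPne (by
    rw [show P = 0 from Subtype.ext h0, map_zero])
  obtain ⟨hdPi, -⟩ := inv_mem_locS hdP hdPne
  have hdi : d⁻¹ ∈ A := mem_of_algebraMap_mem_locS (A := A) (by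
    have := mul_mem hdPi P.2
    rw [mul_inv, mul_assoc, inv_mul_cancel₀ hP0, mul_one] at this
    rwa [map_inv₀])
  have hc : cN ∈ locS A := by
    have := mul_mem (algebraMap_mem_locS hdi) hd
    rwa [← mul_assoc, ← map_mul, inv_mul_cancel₀ hd0, map_one, one_mul] at this
  refine ⟨hc, qExpand_injective q ?_⟩
  rw [← redL_qExpand q hc, ← hPred]
  exact redL_congr _ P.2 hPv.symm

end Fermat.Agent.NewformLocal.Toric

end
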