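import Fermat.Agent.GaloisReps.KummerHecke
import Fermat.Agent.LevelRaising.Operators
import Fermat.Agent.JacTorsion.Descent
import Fermat.Agent.NewformLocal.Toric.NormRed

/-!
# Classes killed by the degeneracy operators have norms which are powers

Let `f` have divisor divisible by `m` at level `q M`. If the monodromy of its `m`-th roots is
killed by the corestriction, its norm to level `M` is an `m`-th power; the second degeneracy
operator is the corestriction after `w`.
-/

set_option autoImplicit false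

noncomputable section

open UpperHalfPlane hiding I
open CongruenceSubgroup AlgebraicCurve ModularCurve
open Matrix.SpecialLinearGroup (mapGL)
open Fermat.Agent.ModFun Fermat.Agent.JacTorsion
open scoped MatrixGroups

attribute [local instance 20000] SubalgebraClass.toAlgebra

namespace Fermat.Agent.NewformLocal.Toric

open Semistable
open LevelRaising (intGL corMat wMat starMat RaiseData bezQ bezN)
open GaloisReps (actGL det_mul_pos det_mapGL_pos)
open Periods (HeckeSystem)
open Arith (QBar)

/-- Systems with the same representatives have the same operator. -/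
theorem apply_eq_of_rep {Γ' Γ : Subgroup SL(2, ℤ)} {ι : Type} [Fintype ι]
    (S S' : HeckeSystem Γ' Γ ι) (h : ∀ i, S.rep i = S'.rep i) {A : Type*} [AddCommGroup A]
    (φ : Additive Γ' →+ A) : S.apply φ = S'.apply φ := by
  refine AddMonoidHom.ext fun x => ?_
  refine Finset.sum_congr rfl fun i _ => congrArg (fun c => φ (Additive.ofMul c)) ?_
  exact (S.eq_of_spec (i := i) (j := S'.perm x.toMul i) (c := S'.cocycle x.toMul i)
    (by rw [h, h]; exact S'.spec x.toMul i)).2

variable {q M : ℕ} [hq : Fact q.Prime] [NeZero M] (hqM : ¬ q ∣ M)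

/-- The systems at level `q M`. -/
structure IsDegeneracySystems (q M : ℕ) (L : ℕ)
    (C S : HeckeSystem (Gamma0 L) (Gamma0 M) (Option (Fin q)))
    (W : HeckeSystem (Gamma0 L) (Gamma0 L) Unit) : Prop where
  cor_rep : ∀ i, C.rep i = intGL (corMat q M i)
  star_rep : ∀ i, S.rep i = intGL (starMat q M i)
  w_rep : W.rep () = intGL (wMat q M)
  cor_w : ∀ {A : Type} [AddCommGroup A] (φ : Additive (Gamma0 L) →+ A),
    C.apply (W.apply φ) = S.apply φ

omit hq [NeZero M] in
/-- The degeneracy systems at level `q M` exist. -/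
theorem exists_degeneracySystems (h : RaiseData q M) {L : ℕ} (hL : L = M * q) :
    ∃ C S W, IsDegeneracySystems q M L C S W := by
  subst hL
  exact ⟨h.corSys, h.starSys, h.wSys, fun _ => rfl, fun _ => rfl, rfl, fun φ => h.cor_w φ⟩

omit hq [NeZero M] in
/-- The conclusion of the degeneracy computation, at any spelling of the level. -/
theorem IsDegeneracySystems.apply_eq {L : ℕ}
    {C S : HeckeSystem (Gamma0 L) (Gamma0 M) (Option (Fin q))}
    {W : HeckeSystem (Gamma0 L) (Gamma0 L) Unit} (hS : IsDegeneracySystems q M L C S W)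
    {C' S' : HeckeSystem (Gamma0 L) (Gamma0 M) (Option (Fin q))}
    {W' : HeckeSystem (Gamma0 L) (Gamma0 L) Unit} (hS' : IsDegeneracySystems q M L C' S' W')
    {A : Type} [AddCommGroup A] (φ : Additive (Gamma0 L) →+ A) :
    C.apply φ = C'.apply φ ∧ S.apply φ = S'.apply φ :=
  ⟨apply_eq_of_rep _ _ (fun i => (hS.cor_rep i).trans (hS'.cor_rep i).symm) φ,
    apply_eq_of_rep _ _ (fun i => (hS.star_rep i).trans (hS'.star_rep i).symm) φ⟩

theorem toC_algebraMap {N : ℕ} (a : QBar) :
    toC N (algebraMap QBar (modularFunctionFieldBar N) a) = algebraMap ℂ (FC N) (ιQ a) :=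
  Subtype.ext (by
    rw [coe_toC]
    show coeffMap ιQ (algebraMap QBar LSer a) = algebraMap ℂ (LaurentSeries ℂ) (ιQ a)
    rw [algebraMap_laurentSeries_eq_single, algebraMap_laurentSeries_eq_single, coeffMap_single])

theorem toC_genF {N : ℕ} [NeZero N] (d : Dvs N) : toC N (genF N d) = toFC N (genH N d) :=
  Subtype.ext (by rw [coe_toC, coe_genF, coe_toFC, qExp_genH, coeffMap_gen])

omit [NeZero M] in
/-- A prime not dividing `M` gives level raising data. -/
theorem raiseData : ¬ q ∣ M → RaiseData q M := fun h => ⟨hq.out, h⟩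

omit [NeZero M] in
theorem det_wMat_pos (h : RaiseData q M) : 0 < (intGL (wMat q M)).det.val :=
  LevelRaising.det_intGL_pos (by rw [h.det_wMat]; exact_mod_cast hq.out.pos)

include hqM in
/-- The point `W τ` exchanges the generators. -/
theorem jH_scaleH_wMat_smul (d : Dvs (q * M)) (τ : ℍ) :
    jH (scaleH d.1 (intGL (wMat q M) • τ)) = jH (scaleH (swapDvs q M hqM d).1 τ) := by
  have h := raiseData hqM
  set u := bezQ q M with hu
  set v := bezN q M with hv
  have hb : u * q + v * M = 1 := h.bez
  let g : SL(2, ℤ) := ⟨!![u, -v; (M : ℤ), (q : ℤ)], by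
    rw [Matrix.det_fin_two_of]; linear_combination hb⟩
  let g' : SL(2, ℤ) := ⟨!![(q : ℤ) * u, -v; (M : ℤ), 1], by
    rw [Matrix.det_fin_two_of]; linear_combination hb⟩
  have hg : g ∈ Gamma0 M := by
    rw [Gamma0_mem, show g 1 0 = (M : ℤ) from rfl]; simp
  have hg' : g' ∈ Gamma0 M := by
    rw [Gamma0_mem, show g' 1 0 = (M : ℤ) from rfl]; simp
  -- `W τ = g (q τ)` with `g ∈ Γ₀(M)`.
  have hW : intGL (wMat q M) • τ = g • scaleH q τ := by
    apply UpperHalfPlane.ext
    rw [coe_smul_of_det_pos (det_wMat_pos h), coe_SL_smul, coe_scaleH]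
    simp only [num, denom]
    rw [LevelRaising.intGL_val
      (show (wMat q M).det ≠ 0 by rw [h.det_wMat]; exact_mod_cast hq.out.ne_zero)]
    simp [wMat, g, hu, hv]
    ring
  rw [hW]
  refine jH_scaleH_atkin_smul q M hqM hg hg' ?_ d
  exact scaleH_smul_scaleH q (by simp [g, g']) (by simp [g, g']) (by simp [g, g'])
    (by simp [g, g']) τ

include hqM in
/-- `w` is the action of the Atkin-Lehner matrix on the upper half plane. -/
theorem e1_wEquiv (x : FB (q * M)) :
    e1 (q * M) (toC (q * M) (wEquiv q M hqM x)) =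
      actGL (intGL (wMat q M)) (det_wMat_pos (raiseData hqM))
        (e1 (q * M) (toC (q * M) x)) := by
  set hdet := det_wMat_pos (raiseData (q := q) (M := M) hqM)
  have h : ((e1 (q * M)).toRingHom.comp (toC (q * M))).comp
        (wEquiv q M hqM).toAlgHom.toRingHom =
      (actGL (intGL (wMat q M)) hdet).toAlgHom.toRingHom.comp
        ((e1 (q * M)).toRingHom.comp (toC (q * M))) := by
    refine fb_ringHom_ext (fun a => ?_) fun d => ?_
    · show e1 (q * M) (toC (q * M) (wEquiv q M hqM (algebraMap QBar _ a))) =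
        actGL _ hdet (e1 (q * M) (toC (q * M) (algebraMap QBar _ a)))
      rw [AlgEquiv.commutes, toC_algebraMap, AlgHom.commutes, AlgEquiv.commutes]
    · show e1 (q * M) (toC (q * M) (wEquiv q M hqM (genF (q * M) d))) =
        actGL _ hdet (e1 (q * M) (toC (q * M) (genF (q * M) d)))
      rw [wEquiv_gen, toC_genF, toC_genF, e1_toFC, e1_toFC, GaloisReps.actGL_algebraMap]
      refine congrArg _ (Subtype.ext (funext fun τ => ?_))
      exact (jH_scaleH_wMat_smul hqM d τ).symm
  exact DFunLike.congr_fun h x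

variable {m : ℕ} [NeZero m]

/-- The monodromy of the roots of a function with divisor divisible by `m`. -/
def monodromy (f : divGrp QBar (FB (q * M)) m) : Additive (Gamma0 (q * M)) →+ ZMod m :=
  (torsionEquiv (q * M) m (toTorsion (Additive.ofMul f))).1

/-- `w` on functions with divisor divisible by `m`. -/
def wDiv : divGrp QBar (FB (q * M)) m →* divGrp QBar (FB (q * M)) m :=
  divGrpMap (wEquiv q M hqM) (fun P => residueConst_of_isFunctionField P) m

omit [NeZero m] in
/-- `wDiv` is `wEquiv` on the underlying function. -/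
theorem coe_wDiv (f : divGrp QBar (FB (q * M)) m) :
    ((wDiv hqM f : (FB (q * M))ˣ) : FB (q * M)) =
      wEquiv q M hqM ((f : (FB (q * M))ˣ) : FB (q * M)) := rfl

include hqM in
/-- The monodromy of `w f`. -/
theorem monodromy_wDiv (W : HeckeSystem (Gamma0 (q * M)) (Gamma0 (q * M)) Unit)
    (hW : W.rep () = intGL (wMat q M)) (f : divGrp QBar (FB (q * M)) m) :
    monodromy (wDiv hqM f) = W.apply (monodromy f) := by
  obtain ⟨r, hroot⟩ := GaloisReps.exists_divGrp_root f
  set hdet := det_wMat_pos (raiseData (q := q) (M := M) hqM)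
  have hr' : (actGL (intGL (wMat q M)) hdet r) ^ m = e1 (q * M) (toC (q * M)
      ((wDiv hqM f : (FB (q * M))ˣ) : FB (q * M))) := by
    rw [← map_pow, hroot, coe_wDiv, e1_wEquiv hqM]
  have h0 : actGL (intGL (wMat q M)) hdet r ≠ 0 :=
    root_ne_zero ((map_ne_zero (toC (q * M))).mpr (Units.ne_zero _)) hr'
  refine AddMonoidHom.ext fun x => ?_
  obtain ⟨γ, rfl⟩ : ∃ γ, Additive.ofMul γ = x := ⟨x.toMul, rfl⟩
  refine eq_of_zetaPow_mul h0 ?_
  refine (torsionEquiv_spec (q * M) m (wDiv hqM f) _ hr' γ).symm.trans ?_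
  rw [Periods.HeckeSystem.apply_apply, Fintype.sum_unique]
  have hA : intGL (wMat q M) * mapGL ℝ (γ : SL(2, ℤ)) =
      mapGL ℝ (W.cocycle γ () : SL(2, ℤ)) * intGL (wMat q M) := by
    have e := W.spec γ ()
    rw [hW] at e
    exact e
  rw [← GaloisReps.actGL_mapGL, ← GaloisReps.actGL_mul,
    GaloisReps.actGL_congr hA _ (det_mul_pos (det_mapGL_pos _) hdet),
    GaloisReps.actGL_mul (det_mapGL_pos _), GaloisReps.actGL_mapGL,
    torsionEquiv_spec (q * M) m f r hroot, map_mul, AlgEquiv.commutes]
  rfl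

/-! ### The norm as a product over cosets -/

/-- The coset representatives in `SL(2, ℤ)`. -/
def corSL (i : Option (Fin q)) : SL(2, ℤ) :=
  ⟨corMat q M i, (raiseData hqM).det_corMat i⟩

omit [NeZero M] in
theorem corSL_mem (i : Option (Fin q)) : corSL hqM i ∈ Gamma0 M := by
  refine Gamma0_mem.mpr ((ZMod.intCast_zmod_eq_zero_iff_dvd _ _).mpr ?_)
  show (M : ℤ) ∣ corMat q M i 1 0
  cases i <;> simp [corMat]

omit [NeZero M] in
theorem mapGL_corSL (i : Option (Fin q)) : mapGL ℝ (corSL hqM i) = intGL (corMat q M i) :=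
  LevelRaising.mapGL_eq_intGL _

include hqM in
/-- The norm to level `M` as a product over the cosets. -/
theorem e1_normUp (C : HeckeSystem (Gamma0 (q * M)) (Gamma0 M) (Option (Fin q)))
    (hC : ∀ i, C.rep i = intGL (corMat q M i)) (x : FB (q * M)) :
    e1 M (toC M (normUp q M x)) =
      ∏ i, actMer (corSL hqM i) (e1 (q * M) (toC (q * M) x)) := by
  classical
  let := algebraAlong (upF M q)
  have : Module.Finite (modularFunctionFieldBar M) (modularFunctionFieldBar (q * M)) :=
    FF.finiteAlong (upF M q)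
  let base : FB M →+* MerH := (e1 M).toRingHom.comp (toC M)
  let σ : Option (Fin q) → (FB (q * M) →+* MerH) := fun i =>
    (actMer (corSL hqM i)).toAlgHom.toRingHom.comp
      ((e1 (q * M)).toRingHom.comp (toC (q * M)))
  have hup : ∀ i (z : FB M), σ i (upF M q z) = base z := by
    intro i z
    show actMer (corSL hqM i) (e1 (q * M) (toC (q * M) (upF M q z))) = e1 M (toC M z)
    rw [GaloisReps.e1_eq_of_coe_eq (dvd_mul_left M q) (toC M z) (toC (q * M) (upF M q z))
      (by rw [coe_toC, coe_toC, coe_upF])]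
    exact actMer_e1 (corSL_mem hqM i) _
  -- The cosets give distinct embeddings, as many as the degree.
  have hinj : Function.Injective σ := by
    intro i j hij
    obtain ⟨y, hy⟩ := GaloisReps.exists_toC_eq_jNF (q * M)
    have h1 : σ i y = σ j y := DFunLike.congr_fun hij y
    have hσ : ∀ k, σ k y = toMerH (q * M) (tr (q * M) (((corSL hqM k)⁻¹ : SL(2, ℤ)) :
        Coset (q * M)) (jd (dvd_refl (q * M)))) := by
      intro k
      show actMer (corSL hqM k) (e1 (q * M) (toC (q * M) y)) = _
      rw [hy, emb_smul, MulAction.Quotient.smul_coe, smul_eq_mul, mul_one, jNF, emb_toFC]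
    rw [hσ, hσ] at h1
    have h2 := tr_jd_injective (toMerH_injective (q * M) h1)
    rw [QuotientGroup.eq, inv_inv] at h2
    refine C.unique i j ⟨_, h2⟩ ?_
    show C.rep i = mapGL ℝ (corSL hqM i * (corSL hqM j)⁻¹) * C.rep j
    rw [hC, hC, ← mapGL_corSL hqM, ← mapGL_corSL hqM, ← map_mul, inv_mul_cancel_right]
  have hcard : Fintype.card (Option (Fin q)) = Module.finrank (FB M) (FB (q * M)) := by
    rw [Fintype.card_option, Fintype.card_fin]
    exact (finrankAlong_upF q M hqM).symm
  -- So the norm is their product.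
  exact FF.map_norm_eq_prod base σ hup hinj hcard x

omit [NeZero m] in
theorem normUp_mem_divGrp (f : divGrp QBar (FB (q * M)) m) (v : Place QBar (FB M)) :
    (m : ℤ) ∣ v.ord (normUp q M ((f : (FB (q * M))ˣ) : FB (q * M))) := by
  have h := FF.ord_norm_along (upF M q) (FF.isIntegralAlong (upF M q)) v
    (Units.ne_zero (f : (FB (q * M))ˣ))
  exact h ▸ Finset.dvd_sum fun w _ => (f.2 w).mul_right _

/-- The norm of a nonzero function is nonzero. -/
theorem normUp_ne_zero {x : FB (q * M)} (hx : x ≠ 0) : normUp q M x ≠ 0 :=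
  ((isUnit_iff_ne_zero.mpr hx).map (normUp q M)).ne_zero

include hqM in
/-- Monodromy killed by the corestriction: the norm is an `m`-th power. -/
theorem exists_normUp_eq_pow (C : HeckeSystem (Gamma0 (q * M)) (Gamma0 M) (Option (Fin q)))
    (hC : ∀ i, C.rep i = intGL (corMat q M i)) (f : divGrp QBar (FB (q * M)) m)
    (hf : C.apply (monodromy f) = 0) :
    ∃ g : FB M, g ≠ 0 ∧ normUp q M ((f : (FB (q * M))ˣ) : FB (q * M)) = g ^ m := by
  classical
  set x : FB (q * M) := ((f : (FB (q * M))ˣ) : FB (q * M))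
  let f' : divGrp QBar (FB M) m :=
    ⟨Units.mk0 _ (normUp_ne_zero (Units.ne_zero (f : (FB (q * M))ˣ))),
      fun v => normUp_mem_divGrp f v⟩
  obtain ⟨r, hroot⟩ := GaloisReps.exists_divGrp_root f
  set H : MerH := ∏ i, actMer (corSL hqM i) r with hH
  have hHm : H ^ m = e1 M (toC M (normUp q M x)) := by
    rw [e1_normUp hqM C hC, hH, ← Finset.prod_pow]
    exact Finset.prod_congr rfl fun i _ => by rw [← map_pow, hroot]
  have hH0 : H ≠ 0 := root_ne_zero ((map_ne_zero (toC M)).mpr
    (normUp_ne_zero (Units.ne_zero (f : (FB (q * M))ˣ)))) hHm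
  have hinv : ∀ γ : Gamma0 M, actMer (γ : SL(2, ℤ)) H =
      algebraMap ℂ MerH (zetaPow m (C.apply (monodromy f) (Additive.ofMul γ))) * H := by
    intro γ
    rw [hH, map_prod, Periods.HeckeSystem.apply_apply, JacTorsion.zetaPow_sum, map_prod,
      ← (C.perm_bijective γ).prod_comp (fun j => actMer (corSL hqM j) r), ← Finset.prod_mul_distrib]
    refine Finset.prod_congr rfl fun i _ => ?_
    have hA : corSL hqM i * (γ : SL(2, ℤ)) =
        (C.cocycle γ i : SL(2, ℤ)) * corSL hqM (C.perm γ i) :=
      Periods.mapGL_int_injective (by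
        rw [map_mul, map_mul, mapGL_corSL, mapGL_corSL, ← hC, ← hC]; exact C.spec γ i)
    rw [← actMer_mul, hA, actMer_mul, torsionEquiv_spec (q * M) m f r hroot, map_mul,
      AlgEquiv.commutes]
    rfl
  have hzero : toTorsion (Additive.ofMul f') = 0 := by
    refine (torsionEquiv M m).injective (Subtype.ext (AddMonoidHom.ext fun y => ?_))
    obtain ⟨γ, rfl⟩ : ∃ γ, Additive.ofMul γ = y := ⟨y.toMul, rfl⟩
    rw [map_zero, AddSubgroup.coe_zero, AddMonoidHom.zero_apply]
    refine eq_of_zetaPow_mul hH0 ?_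
    refine (torsionEquiv_spec M m f' H hHm γ).symm.trans ?_
    rw [hinv, hf, AddMonoidHom.zero_apply]
  obtain ⟨g, hg⟩ := (toTorsion_eq_zero_iff f').mp hzero
  refine ⟨(g : (FB M)ˣ), g.ne_zero, ?_⟩
  rw [powMonoidHom_apply] at hg
  rw [← Units.val_pow_eq_pow_val, hg]
  rfl

include hqM in
/-- Monodromy killed by both degeneracy operators: the norms of `f` and of `w f` are powers. -/
theorem exists_norms_eq_pow {C S : HeckeSystem (Gamma0 (q * M)) (Gamma0 M) (Option (Fin q))}
    {W : HeckeSystem (Gamma0 (q * M)) (Gamma0 (q * M)) Unit}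
    (hS : IsDegeneracySystems q M (q * M) C S W) (f : divGrp QBar (FB (q * M)) m)
    (hcor : C.apply (monodromy f) = 0) (hstar : S.apply (monodromy f) = 0) :
    (∃ g : FB M, g ≠ 0 ∧ normUp q M ((f : (FB (q * M))ˣ) : FB (q * M)) = g ^ m) ∧
      ∃ g : FB M, g ≠ 0 ∧
        normUp q M (wEquiv q M hqM ((f : (FB (q * M))ˣ) : FB (q * M))) = g ^ m := by
  refine ⟨exists_normUp_eq_pow hqM C hS.cor_rep f hcor, ?_⟩
  rw [← coe_wDiv hqM]
  refine exists_normUp_eq_pow hqM C hS.cor_rep (wDiv hqM f) ?_
  rw [monodromy_wDiv hqM W hS.w_rep, hS.cor_w, hstar]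

end Fermat.Agent.NewformLocal.Toric

end
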