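import Fermat.Agent.Semistable.Torsion
import Fermat.Agent.NewformLocal.Toric.NormRed

/-!
# Classes whose norms are powers become toric after applying `σ ^ 2 - 1`

If the norms of `f` and of `w f` to level `M` are `m`-th powers, the scaled reductions `t₀, t₁` of
`f` satisfy `t₀ φ(t₁)` and `t₁ φ(t₀)` constants times `m`-th powers, `φ` the Frobenius on
coefficients; hence `φ²(t) / t` is a constant times an `m`-th power for both, so that the class
moved by `σ² - 1` has a Kummer function with constant reductions, on which `σ² = q²`.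
-/

set_option autoImplicit false

noncomputable section

namespace Fermat.Agent.NewformLocal.Toric

open AlgebraicCurve ModularCurve Semistable
open Arith (QBar GQ)

variable {A : ValuationSubring QBar} {q M : ℕ} [hq : Fact q.Prime] [NeZero M]
  [CharP (Res A) q]

/-- Coefficient Frobenius on constants. -/
theorem frob_algebraMap (c : Res A) :
    coeffMap (frobenius (Res A) q) (algebraMap (Res A) (LaurentSeries (Res A)) c) =
      algebraMap (Res A) _ (frobenius (Res A) q c) :=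
  coeffMap_algebraMap _ _

/-- The reductions of a function whose norm is an `m`-th power. -/
theorem exists_norm_red (hqM : ¬ q ∣ M) (hA : A.LiesOverPrime q) {m : ℕ} {x : FB (q * M)}
    {g : FB M} (hg : g ≠ 0) (hN : normUp q M x = g ^ m) {a b : QBar}
    (ha : algebraMap QBar LSer a * (x : LSer) ∈ locS A)
    (hb : algebraMap QBar LSer b * (wEquiv q M hqM x : LSer) ∈ locS A)
    (ha0 : redL A ⟨_, ha⟩ ≠ 0) (hb0 : redL A ⟨_, hb⟩ ≠ 0) :
    ∃ (κ : Res A) (G : loc2 A (iota1 M)), κ ≠ 0 ∧ red1 A M G ≠ 0 ∧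
      redL A ⟨_, ha⟩ * coeffMap (frobenius (Res A) q) (redL A ⟨_, hb⟩) =
        algebraMap (Res A) _ κ * red1 A M G ^ m := by
  obtain ⟨hc, hcr⟩ := redL_normUp hqM hA ha hb ha0 hb0
  have hg0 : (g : LSer) ≠ 0 := fun h0 => hg (Subtype.ext (h0.trans rfl))
  obtain ⟨γ, hγ, hγg, hγr⟩ := exists_scale hA hq.out (mem_fracS_of_mem g) hg0
  set G : loc2 A (iota1 M) := ⟨algebraMap QBar (FB M) γ * g, (mem_loc1 M).mpr hγg⟩ with hG
  have hGr : red1 A M G = redL A ⟨_, hγg⟩ := (red1_eq M G).trans (redL_congr _ _ rfl)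
  have hGr0 : red1 A M G ≠ 0 := by rw [hGr]; exact hγr
  set u := a * b ^ q / γ ^ m with hu
  obtain ⟨p, hp⟩ : ∃ p : locS A, p = ⟨_, hγg⟩ ^ m := ⟨_, rfl⟩
  have hp0 : redL A p ≠ 0 := by rw [hp, map_pow]; exact pow_ne_zero _ hγr
  obtain ⟨hpi, hpr⟩ := inv_mem_locS p.2 hp0
  have e : algebraMap QBar LSer (a * b ^ q) * (normUp q M x : LSer) * (p : LSer)⁻¹ =
      algebraMap QBar LSer u := by
    rw [hN, hp, SubmonoidClass.coe_pow, hu, map_div₀, map_pow (algebraMap QBar LSer) γ]
    show _ * ((g : LSer) ^ m) * ((algebraMap QBar LSer γ * (g : LSer)) ^ m)⁻¹ = _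
    rw [mul_pow, ← div_eq_mul_inv, mul_div_mul_right _ _ (pow_ne_zero _ hg0)]
  have hum : algebraMap QBar LSer u ∈ locS A := e ▸ mul_mem hc hpi
  have hur : redL A ⟨_, hum⟩ =
      redL A ⟨_, ha⟩ * coeffMap (frobenius (Res A) q) (redL A ⟨_, hb⟩) * (redL A p)⁻¹ := by
    obtain ⟨P, hP⟩ : ∃ P : locS A, P = ⟨_, hc⟩ * ⟨_, hpi⟩ := ⟨_, rfl⟩
    have e' : algebraMap QBar LSer u = (P : LSer) := by
      rw [hP, Subring.coe_mul]; exact e.symm
    rw [redL_congr hum P.2 e', ← hcr, ← hpr, ← map_mul, ← hP]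
  obtain ⟨huA, huu⟩ := Semistable.mem_of_algebraMap_mem_locS hum (by
    rw [hur]
    exact mul_ne_zero (mul_ne_zero ha0 ((_root_.map_ne_zero _).mpr hb0)) (inv_ne_zero hp0))
  refine ⟨IsLocalRing.residue A ⟨u, huA⟩, G, fun h0 => huu ((residue_eq_zero_iff huA).mp h0),
    hGr0, ?_⟩
  rw [redL_congr hum (algebraMap_mem_locS huA) rfl, redL_algebraMap huA] at hur
  rw [hur, hGr, ← map_pow, ← hp, inv_mul_cancel_right₀ hp0]

/-- The reductions of `σ² f / f`. -/
theorem exists_red_galois_sq (hqM : ¬ q ∣ M) {σ : GQ}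
    (hσ : A.IsFrobeniusAt σ q) (s : Fin 2) {f : FB (q * M)} (hf : f ≠ 0) {c : QBar} (hc0 : c ≠ 0)
    (hc : algebraMap QBar LSer c * iota2 M q hqM s f ∈ locS A) (hcr : redL A ⟨_, hc⟩ ≠ 0) :
    ∃ (ν : Res A) (h : iota2 M q hqM s (galF (q * M) σ (galF (q * M) σ f) / f) ∈ locS A),
      ν ≠ 0 ∧ redL A ⟨_, h⟩ = algebraMap (Res A) _ ν *
        (coeffMap (frobenius (Res A) q) (coeffMap (frobenius (Res A) q) (redL A ⟨_, hc⟩)) /
          redL A ⟨_, hc⟩) := by
  have hL := resLift_of_frobenius hσ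
  obtain ⟨h1, h1r⟩ := hL.redL_coeffMap hc
  obtain ⟨h2, h2r⟩ := hL.redL_coeffMap h1
  obtain ⟨hi, hir⟩ := inv_mem_locS hc hcr
  have hσc : σ (σ c) ≠ 0 := (_root_.map_ne_zero σ).mpr ((_root_.map_ne_zero σ).mpr hc0)
  have hval : A.valuation (c / σ (σ c)) = 1 := by
    rw [map_div₀, hL.valuation_eq, hL.valuation_eq, div_self ((Valuation.ne_zero_iff _).mpr hc0)]
  have hκ : c / σ (σ c) ∈ A := (A.valuation_le_one_iff _).mp hval.le
  have hκ' : IsLocalRing.residue A ⟨c / σ (σ c), hκ⟩ ≠ 0 := fun h0 =>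
    ((ValuationSubring.mem_nonunits_iff A).mp ((residue_eq_zero_iff hκ).mp h0)).ne hval
  set P : locS A := ⟨_, algebraMap_mem_locS hκ⟩ * (⟨_, h2⟩ * ⟨_, hi⟩) with hP
  have e : iota2 M q hqM s (galF (q * M) σ (galF (q * M) σ f) / f) = (P : LSer) := by
    show _ = algebraMap QBar LSer (c / σ (σ c)) *
      (coeffMap (σ : QBar →+* QBar) (coeffMap (σ : QBar →+* QBar)
        (algebraMap QBar LSer c * iota2 M q hqM s f)) *
          (algebraMap QBar LSer c * iota2 M q hqM s f)⁻¹)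
    rw [map_div₀, iota2_galF, iota2_galF, map_mul, map_mul, coeffMap_algebraMap,
      coeffMap_algebraMap, map_div₀]
    simp only [RingHom.coe_coe]
    have g1 : algebraMap QBar LSer c ≠ 0 := (_root_.map_ne_zero _).mpr hc0
    have g2 : algebraMap QBar LSer (σ (σ c)) ≠ 0 := (_root_.map_ne_zero _).mpr hσc
    have g3 : iota2 M q hqM s f ≠ 0 := (_root_.map_ne_zero _).mpr hf
    field_simp
  refine ⟨_, e ▸ SetLike.coe_mem P, hκ', ?_⟩
  rw [redL_congr _ (SetLike.coe_mem P) e]
  change redL A P = _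
  rw [hP, map_mul, map_mul, redL_algebraMap hκ, hir, h2r, h1r,
    div_eq_mul_inv (coeffMap _ _)]

/-- Cancelling in the two norm relations. -/
theorem frob_sq_div_eq {r r' G G' : LaurentSeries (Res A)} {κ κ' : Res A} {m : ℕ}
    (hr' : r' ≠ 0)
    (h : r * coeffMap (frobenius (Res A) q) r' = algebraMap (Res A) _ κ * G ^ m)
    (h' : r' * coeffMap (frobenius (Res A) q) r = algebraMap (Res A) _ κ' * G' ^ m) :
    coeffMap (frobenius (Res A) q) (coeffMap (frobenius (Res A) q) r) / r =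
      algebraMap (Res A) _ (frobenius (Res A) q κ' / κ) *
        (coeffMap (frobenius (Res A) q) G' / G) ^ m := by
  have h'' := congrArg (coeffMap (frobenius (Res A) q)) h'
  rw [map_mul, map_mul, frob_algebraMap, map_pow] at h''
  have hr'0 : coeffMap (frobenius (Res A) q) r' ≠ 0 := (_root_.map_ne_zero _).mpr hr'
  rw [map_div₀, div_pow, div_mul_div_comm, ← h'', ← h, mul_comm r,
    mul_div_mul_left _ _ hr'0]

variable [FF.IsFunctionField (Res A) (KM A M)]

omit [FF.IsFunctionField (Res A) ↥(KM A M)] in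
/-- A toric class in the translate by principal divisors of `(σ² - 1) D`. -/
theorem exists_hasKummer (h : Setup A M q) {σ : GQ} (hσ : A.IsFrobeniusAt σ q)
    {D : Divisor QBar (FB (q * M))} {m : ℕ} {f : FB (q * M)} (hf : f ≠ 0)
    (hord : ∀ v, v.ord f = (m : ℤ) * D v) {g g' : FB M} (hg : g ≠ 0) (hg' : g' ≠ 0)
    (hN : normUp q M f = g ^ m) (hN' : normUp q M (wEquiv q M h.hqM f) = g' ^ m) :
    ∃ (y : FB (q * M)) (a : Fin 2 → Res A), y ≠ 0 ∧
      HasKummer h ((galD σ (galD σ D) - D) + FF.div QBar y) m a := by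
  have hs : ∀ s, iota2 M q h.hqM s f ∈ fracS A := fun s => iota2_fracS M q h.hqM s f
  have hne : ∀ s, iota2 M q h.hqM s f ≠ 0 := fun s => (_root_.map_ne_zero _).mpr hf
  choose c hc0 hc hcr using fun s => exists_scale h.hA hq.out (hs s) (hne s)
  -- `F = σ² f / f` has divisor `m (σ² - 1) D`. By the two norm relations its reduction on each
  -- component is a constant times the `m`-th power of a ratio of the roots `G`, `G'` and their
  -- Frobenius conjugates, and `y` cancels that power.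
  -- the two relations
  obtain ⟨κ, G, hκ, hG, hrel⟩ := exists_norm_red h.hqM h.hA hg hN
    (a := c 0) (b := c 1) (hc 0) (hc 1) (hcr 0) (hcr 1)
  have hw : algebraMap QBar LSer (c 0) *
      (wEquiv q M h.hqM (wEquiv q M h.hqM f) : LSer) ∈ locS A := by
    rw [wEquiv_wEquiv]; exact hc 0
  have hwr : redL A ⟨_, hw⟩ = redL A ⟨_, hc 0⟩ :=
    redL_congr _ _ (by rw [wEquiv_wEquiv]; rfl)
  obtain ⟨κ', G', hκ', hG', hrel'⟩ := exists_norm_red h.hqM h.hA hg' hN'
    (a := c 1) (b := c 0) (hc 1) hw (hcr 1) (by rw [hwr]; exact hcr 0)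
  rw [hwr] at hrel'
  have hFr := frob_sq_div_eq (hcr 1) hrel hrel'
  have hFr' := frob_sq_div_eq (hcr 0) hrel' hrel
  -- the conjugates of the roots in the residual function field
  have hL := resLift_of_frobenius hσ
  obtain ⟨hG1, hG1r⟩ := hL.galF_mem_loc1 M G
  obtain ⟨hG2, hG2r⟩ := hL.galF_mem_loc1 M G'
  have hφ : ∀ {z : LaurentSeries (Res A)}, z ≠ 0 → coeffMap (frobenius (Res A) q) z ≠ 0 :=
    fun hz => (_root_.map_ne_zero _).mpr hz
  have h₀ : red1 A M G / coeffMap (frobenius (Res A) q) (red1 A M G') ∈ KM A M := by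
    rw [← hG2r]; exact div_mem (red1_mem_KM M h.hM G) (red1_mem_KM M h.hM _)
  have h₁ : red1 A M G' / coeffMap (frobenius (Res A) q) (red1 A M G) ∈ KM A M := by
    rw [← hG1r]; exact div_mem (red1_mem_KM M h.hM G') (red1_mem_KM M h.hM _)
  obtain ⟨y, hy⟩ := red2_surjective M q h.hqM h.hM h₀ h₁
  have hy0 : (y : FB (q * M)) ≠ 0 := fun h0 => by
    have h1 : red2 A (iota2 M q h.hqM) y = 0 := by
      rw [show y = 0 from Subtype.ext h0, map_zero]
    rw [h1] at hy
    exact div_ne_zero hG (hφ hG') (congrFun hy 0).symm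
  -- the quotient
  choose ν hFm hν hFred using fun s => exists_red_galois_sq h.hqM hσ s hf (hc0 s) (hc s) (hcr s)
  set F := galF (q * M) σ (galF (q * M) σ f) / f with hF
  have hf2 : galF (q * M) σ (galF (q * M) σ f) ≠ 0 :=
    (_root_.map_ne_zero _).mpr ((_root_.map_ne_zero _).mpr hf)
  let F' : loc2 A (iota2 M q h.hqM) := ⟨F, (mem_loc2 _).mpr hFm⟩
  let cst : Fin 2 → Res A :=
    ![ν 0 * (frobenius (Res A) q κ' / κ), ν 1 * (frobenius (Res A) q κ / κ')]
  refine ⟨y, cst, hy0, ?_, F' * y ^ m, fun v => ?_, fun s => ?_⟩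
  · have hfr : ∀ {z : Res A}, z ≠ 0 → frobenius (Res A) q z ≠ 0 := fun hz =>
      (_root_.map_ne_zero _).mpr hz
    intro s
    fin_cases s
    · exact mul_ne_zero (hν 0) (div_ne_zero (hfr hκ') hκ)
    · exact mul_ne_zero (hν 1) (div_ne_zero (hfr hκ) hκ')
  · show v.ord (F * (y : FB (q * M)) ^ m) = _
    rw [v.ord_mul (div_ne_zero hf2 hf) (pow_ne_zero _ hy0), FF.ord_pow,
      Finsupp.add_apply, ord_div_of_ord hf hf2 hord (ord_galF σ (ord_galF σ hord)),
      FF.div_apply]
    ring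
  · have hFs : red2 A (iota2 M q h.hqM) F' s = algebraMap (Res A) _ (ν s) *
        (coeffMap (frobenius (Res A) q) (coeffMap (frobenius (Res A) q) (redL A ⟨_, hc s⟩)) /
          redL A ⟨_, hc s⟩) := by
      rw [red2_apply]; exact hFred s
    rw [map_mul, map_pow, Pi.mul_apply, Pi.pow_apply, hFs, hy]
    fin_cases s
    · show _ * (red1 A M G / coeffMap (frobenius (Res A) q) (red1 A M G')) ^ m =
        algebraMap (Res A) _ (ν 0 * (frobenius (Res A) q κ' / κ))
      rw [map_mul]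
      erw [hFr]
      rw [mul_assoc, mul_assoc, ← mul_pow, div_mul_div_comm, mul_comm (coeffMap _ _) (red1 A M G),
        div_self (mul_ne_zero hG (hφ hG')), one_pow, mul_one]
      rfl
    · show _ * (red1 A M G' / coeffMap (frobenius (Res A) q) (red1 A M G)) ^ m =
        algebraMap (Res A) _ (ν 1 * (frobenius (Res A) q κ / κ'))
      rw [map_mul]
      erw [hFr']
      rw [mul_assoc, mul_assoc, ← mul_pow, div_mul_div_comm, mul_comm (coeffMap _ _) (red1 A M G'),
        div_self (mul_ne_zero hG' (hφ hG)), one_pow, mul_one]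
      rfl

omit [CharP (Res A) q] [FF.IsFunctionField (Res A) (KM A M)] in
/-- **`σ² = q²` on `(σ² - 1)` of a class killed by both degeneracy maps.** -/
theorem frobenius_sq_torsion (hA : A.LiesOverPrime q) (hqM : ¬ q ∣ M) {σ : GQ}
    (hσ : A.IsFrobeniusAt σ q) {m : ℕ} (hmq : ¬ q ∣ m)
    {D : Divisor.degZero (K := QBar) (F := FB (q * M))} {f : FB (q * M)} (hf : f ≠ 0)
    (hord : ∀ v, v.ord f = (m : ℤ) * (D : Divisor QBar (FB (q * M))) v)
    {g g' : FB M} (hg : g ≠ 0) (hg' : g' ≠ 0) (hN : normUp q M f = g ^ m)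
    (hN' : normUp q M (wEquiv q M hqM f) = g' ^ m) :
    σ • σ • (σ • σ • (Pic0.mk D : JZero (q * M)) - Pic0.mk D) -
      (q ^ 2) • (σ • σ • (Pic0.mk D : JZero (q * M)) - Pic0.mk D) = 0 := by
  have := charP_res (q := q) hA
  have := isFunctionField_KM A (natCast_res_ne_zero hA hqM : (M : Res A) ≠ 0)
  have hm : m ≠ 0 := fun h => hmq (h ▸ dvd_zero q)
  have h := setup_of_not_dvd hA hqM
  obtain ⟨y, a, hy, hk⟩ := exists_hasKummer h hσ hf hord hg hg' hN hN'
  have hP := h.frobenius_sq_principal hσ hm hmq hk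
  have hy' : FF.div QBar y ∈ Divisor.principal (K := QBar) (F := FB (q * M)) :=
    ⟨y, hy, fun v => FF.div_apply y v⟩
  have hP' : galD σ (galD σ (FF.div QBar y)) - (q ^ 2) • FF.div QBar y ∈
      Divisor.principal (K := QBar) (F := FB (q * M)) :=
    sub_mem (SemilinearAut.smul_mem_principal _ (SemilinearAut.smul_mem_principal _ hy'))
      (nsmul_mem hy' _)
  set E := galD σ (galD σ (D : Divisor QBar (FB (q * M)))) - (D : Divisor QBar (FB (q * M)))
  have e : galD σ (galD σ E) - (q ^ 2) • E ∈ Divisor.principal (K := QBar) (F := FB (q * M)) := by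
    have h2 := sub_mem hP hP'
    have e1 : ∀ X Y : Divisor QBar (FB (q * M)), galD σ (X + Y) = galD σ X + galD σ Y :=
      fun X Y => smul_add _ X Y
    rw [e1, e1, smul_add] at h2
    convert h2 using 1
    abel
  exact (mk_eq_zero_iff
    (SemilinearAut.degZeroSMulHom _ (SemilinearAut.degZeroSMulHom _
        (SemilinearAut.degZeroSMulHom _ (SemilinearAut.degZeroSMulHom _ D) - D)) -
      (q ^ 2) • (SemilinearAut.degZeroSMulHom _ (SemilinearAut.degZeroSMulHom _ D) - D))).mpr e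

end Fermat.Agent.NewformLocal.Toric

end
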