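import Fermat.Agent.NewformLocal.Assembly
import Fermat.Agent.NewformLocal.Toric.Frobenius
import Fermat.Agent.NewformLocal.Toric.Homs
import Fermat.Agent.NewformLocal.Toric.Transfer
import Fermat.Agent.GaloisReps.Results

/-!
# The square of Frobenius at `q` on the model at level `q M`
-/

set_option autoImplicit false

noncomputable section

open CongruenceSubgroup ModularCurve

namespace Fermat.Agent.NewformLocal.Toric

open GaloisReps (coord matIn toFull atkinHom galTors modelOfCongruence)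
open JacTorsion (toTorsion divQuot divGrp)
open Arith (QBar)

/-- The degeneracy computation at any spelling of the level. -/
theorem degeneracy_eq_zero' {q M L : ℕ} [NeZero M] [NeZero L] (h : LevelRaising.RaiseData q M)
    (hL : L = M * q) (hR : M ∣ L) (t : CuspForm.heckeAlgebra L 2 (levelPrimes L))
    (ht : ∀ f : CuspForm (Gamma0 M) 2, t.1 (Newforms.levelIncl hR f) = 0)
    {B : Type} [CommRing B] {φ : Additive (Gamma0 L) →+ B}
    (hφ : φ ∈ Gamma0.ellParHoms (Gamma0 L) B) (c : Fin (2 * Gamma0.genus L) → B)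
    (hc : coord L B φ =
      ((GaloisReps.latticeMat _ (toFull _ t)).map (Int.castRingHom B)).mulVec c)
    {C S : Periods.HeckeSystem (Gamma0 L) (Gamma0 M) (Option (Fin q))}
    {W : Periods.HeckeSystem (Gamma0 L) (Gamma0 L) Unit} (hS : IsDegeneracySystems q M L C S W) :
    C.apply (atkinHom _ B φ) = 0 ∧ S.apply (atkinHom _ B φ) = 0 := by
  subst hL
  obtain ⟨h1, h2⟩ := degeneracy_eq_zero h t ht hφ c hc
  have hS' : IsDegeneracySystems q M (M * q) h.corSys h.starSys h.wSys :=
    ⟨fun _ => rfl, fun _ => rfl, rfl, fun φ => h.cor_w φ⟩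
  obtain ⟨e1, e2⟩ := hS.apply_eq hS' (atkinHom _ B φ)
  exact ⟨e1.trans h1, e2.trans h2⟩

variable {q M p : ℕ} [hq : Fact q.Prime] [NeZero M] [hp : Fact p.Prime]

/-- Frobenius squared on torsion in the image of an operator killing level `M`. -/
theorem frobenius_sq_image (hqM : ¬ q ∣ M) (hqp : q ≠ p) (hR : M ∣ q * M)
    (t : CuspForm.heckeAlgebra (q * M) 2 (levelPrimes (q * M)))
    (ht : ∀ f : CuspForm (Gamma0 M) 2, t.1 (Newforms.levelIncl hR f) = 0)
    {A : ValuationSubring QBar} (hA : A.LiesOverPrime q) {σ : GaloisReps.AbsGal}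
    (hσ : A.IsFrobeniusAt σ q) (n : ℕ) (x : GaloisReps.JTors (q * M) p n)
    (c : Fin (2 * Gamma0.genus (q * M)) → ZMod (p ^ n))
    (hc : (GaloisReps.torsionIso (q * M) p (GaloisReps.conjProperty (q * M))).psi n x =
      ((GaloisReps.latticeMat _ (toFull _ t)).map (Int.castRingHom _)).mulVec c) :
    σ • σ • (σ • σ • (x : JZero (q * M)) - x) -
      (q ^ 2) • (σ • σ • (x : JZero (q * M)) - x) = 0 := by
  set E := GaloisReps.torsionIso (q * M) p (GaloisReps.conjProperty (q * M)) with hE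
  have h := raiseData hqM
  obtain ⟨C, S, W, hS⟩ := exists_degeneracySystems h (mul_comm q M)
  obtain ⟨f, rfl⟩ := JacTorsion.toTorsion_surjective x
  have hmon : atkinHom _ (ZMod (p ^ n)) (E.e n (toTorsion f)).1 = monodromy f.toMul := by
    show atkinHom _ _ (atkinHom _ _ (JacTorsion.torsionEquiv (q * M) (p ^ n) (toTorsion f)).1) = _
    rw [GaloisReps.atkinHom_atkinHom]
    rfl
  obtain ⟨h1, h2⟩ := degeneracy_eq_zero' h (mul_comm q M) hR t ht (E.e n (toTorsion f)).2 c hc hS
  rw [hmon] at h1 h2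
  obtain ⟨⟨g, hg, hN⟩, g', hg', hN'⟩ := exists_norms_eq_pow hqM hS f.toMul h1 h2
  refine frobenius_sq_torsion hA hqM hσ (m := p ^ n)
    (fun hd => hqp ((Nat.prime_dvd_prime_iff_eq hq.out hp.out).1 (hq.out.dvd_of_dvd_pow hd)))
    (D := ⟨divQuot f.toMul, JacTorsion.divQuot_mem_degZero _⟩) (Units.ne_zero _) (fun v => ?_)
    hg hg' hN hN'
  have h3 := DFunLike.congr_fun (JacTorsion.smul_divQuot f.toMul) v
  rw [Finsupp.smul_apply, smul_eq_mul, FF.div_apply] at h3
  exact h3.symm

theorem toricSquareAt_mul (hqM : ¬ q ∣ M) (hqp : q ≠ p)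
    (hES : GaloisReps.EichlerShimuraCongruence (q * M) p) :
    ToricSquareAt (modelOfCongruence hES) q := by
  intro R hR0 hR hRq t ht A hA σ hσ
  obtain rfl : R = M := mul_right_cancel₀ hq.out.ne_zero (hRq.trans (mul_comm q M))
  set E := GaloisReps.torsionIso (q * R) p (GaloisReps.conjProperty (q * R))
  show (E.gal σ * E.gal σ - (q : ℤ_[p]) ^ 2 • 1) * (E.gal σ * E.gal σ - 1) *
    matIn (GaloisReps.latticeMat (q * R)) ℤ_[p] (toFull _ t) = 0
  refine GaloisReps.ext_of_forall_toZModPow fun n => ?_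
  have hG : (PadicInt.toZModPow n).mapMatrix (E.gal σ) = E.galLvl n σ := E.map_gal n σ
  show (PadicInt.toZModPow n).mapMatrix _ = (PadicInt.toZModPow n).mapMatrix 0
  rw [← Nat.cast_pow, Nat.cast_smul_eq_nsmul, map_zero, map_mul, map_mul, map_sub, map_sub,
    map_mul, map_nsmul, map_one, hG, RingHom.mapMatrix_apply, GaloisReps.matIn_apply,
    GaloisReps.map_intCast_toZModPow]
  refine Matrix.toLin'.injective (LinearMap.ext fun v => ?_)
  obtain ⟨x, hx⟩ := (E.psi n).surjective
    (((GaloisReps.latticeMat _ (toFull _ t)).map (Int.castRingHom _)).mulVec v)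
  have key := frobenius_sq_image hqM hqp hR t ht hA hσ n x v hx
  rw [Matrix.toLin'_apply, map_zero, LinearMap.zero_apply, ← Matrix.mulVec_mulVec, ← hx]
  simp only [← Matrix.mulVec_mulVec, Matrix.sub_mulVec, Matrix.smul_mulVec, Matrix.one_mulVec,
    E.galLvl_mulVec, ← map_nsmul, ← map_sub]
  exact (congrArg (E.psi n) (Subtype.ext key)).trans (map_zero _)

/-- **The toric input at a prime exactly dividing the level.** -/
theorem toricSquareAt {N : ℕ} [NeZero N] {p : ℕ} [Fact p.Prime] {q : ℕ} (hq : q.Prime)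
    (hqp : q ≠ p) (hqN : q ∣ N) (hq2 : ¬ q ^ 2 ∣ N)
    (hES : GaloisReps.EichlerShimuraCongruence N p) :
    ToricSquareAt (modelOfCongruence hES) q := by
  obtain ⟨M, rfl⟩ := hqN
  have : Fact q.Prime := ⟨hq⟩
  have : NeZero M := ⟨fun h => NeZero.ne (q * M) (by rw [h, mul_zero])⟩
  exact toricSquareAt_mul (fun h => hq2 (by rw [pow_two]; exact mul_dvd_mul_left q h)) hqp hES

end Fermat.Agent.NewformLocal.Toric

end
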